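import Fermat.Agent.S17.H.ClassInv.Defs

/-!
# S17, route H, node (G3), task CI-2: the Galois action
(Galois stable sets of points are permuted, `chi` is rational, division of rational functions.)
Proofs: helper275.
-/

set_option autoImplicit false

noncomputable section

open scoped Classical

namespace Fermat.Agent.S17.H.CI

open Fermat.Agent.S17.H Polynomial

variable (𝔳 : AbsFam) {A : Type} [CommRing A] [Algebra Qb A] (C : WCurve A)

/-- an element of `ℚ̄` fixed by the Galois group is rational. -/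
theorem mem_range_of_fixed (x : Qb) (hx : ∀ σ : Qb ≃ₐ[ℚ] Qb, σ x = x) :
    x ∈ Set.range (algebraMap ℚ Qb) := by
  have h : (DivisionRing.toRatAlgebra : Algebra ℚ (AlgebraicClosure ℚ)) =
      AlgebraicClosure.instAlgebra ℚ := Subsingleton.elim _ _
  have h1 : IsAlgClosure ℚ (AlgebraicClosure ℚ) := by
    rw [h]
    infer_instance
  have : IsGalois ℚ Qb := inferInstance
  exact IntermediateField.mem_bot.mp ((InfiniteGalois.mem_bot_iff_fixed x).mpr hx)

/-- a point is determined by its values on the basis. -/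
theorem pt_ext {P Q : Pt A} (h : ∀ i, P (C.b i) = Q (C.b i)) : P = Q := by
  have h1 : P.toLinearMap = Q.toLinearMap := C.b.ext h
  exact AlgHom.ext fun f => DFunLike.congr_fun h1 f

/-- a Galois stable set of points is permuted by every `σ` (all basis elements at once). -/
theorem exists_perm_basis {E : Finset (Pt A)} (hE : C.GalStable E) (σ : Qb ≃ₐ[ℚ] Qb) :
    ∃ π : Equiv.Perm E, ∀ (P : E) (i : ℕ), σ (P.1 (C.b i)) = (π P).1 (C.b i) := by
  choose f hfE hf using fun P : E => hE σ P.1 P.2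
  have hinj : Function.Injective fun P : E => (⟨f P, hfE P⟩ : E) := by
    intro P Q hPQ
    have h1 : f P = f Q := congrArg Subtype.val hPQ
    apply Subtype.ext
    apply pt_ext C
    intro i
    apply σ.injective
    rw [← hf P i, ← hf Q i, h1]
  exact ⟨Equiv.ofBijective _ (Finite.injective_iff_bijective.1 hinj), fun P i => (hf P i).symm⟩

/-- a Galois stable set of points is permuted by every `σ`. -/
theorem exists_perm_of_galStable {E : Finset (Pt A)} (hE : C.GalStable E) (n : ℕ)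
    (σ : Qb ≃ₐ[ℚ] Qb) :
    ∃ π : Equiv.Perm E, ∀ i k, σ (C.evMat n E i k) = C.evMat n E (π i) k := by
  obtain ⟨π, hπ⟩ := exists_perm_basis C hE σ
  exact ⟨π, fun i k => hπ i k⟩

/-- i.e. `chi C E` has rational coefficients (`chi` unfolded). -/
theorem chi_isRat {E : Finset (Pt A)} (hE : C.GalStable E) :
    ∃ p : ℚ[X], ∏ P ∈ E, (X - Polynomial.C (P C.t)) = p.map (algebraMap ℚ Qb) := by
  have hfix : ∀ σ : Qb ≃ₐ[ℚ] Qb,
      (∏ P ∈ E, (X - Polynomial.C (P C.t))).map (σ : Qb →+* Qb) =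
        ∏ P ∈ E, (X - Polynomial.C (P C.t)) := by
    intro σ
    obtain ⟨π, hπ⟩ := exists_perm_basis C hE σ
    rw [Polynomial.map_prod, ← Finset.prod_coe_sort E, ← Finset.prod_coe_sort E,
      ← Equiv.prod_comp π (fun P : E => X - Polynomial.C (P.1 C.t))]
    refine Finset.prod_congr rfl fun P _ => ?_
    rw [Polynomial.map_sub, Polynomial.map_X, Polynomial.map_C]
    congr 2
    exact hπ P 1
  have hl : (∏ P ∈ E, (X - Polynomial.C (P C.t))) ∈ Polynomial.lifts (algebraMap ℚ Qb) := by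
    rw [Polynomial.lifts_iff_coeff_lifts]
    intro n
    apply mem_range_of_fixed
    intro σ
    have h1 := congrArg (fun p => Polynomial.coeff p n) (hfix σ)
    simp only [Polynomial.coeff_map] at h1
    exact h1
  obtain ⟨p, hp⟩ := (Polynomial.mem_lifts _).1 hl
  exact ⟨p, hp.symm⟩

/-- the coefficientwise Galois action on `A` (with respect to the basis `b`). -/
def gA (σ : Qb ≃ₐ[ℚ] Qb) : A →ₛₗ[(σ : Qb →+* Qb)] A where
  toFun f := Finsupp.linearCombination Qb C.b (Finsupp.mapRange σ (map_zero σ) (C.b.repr f))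
  map_add' f h := by
    rw [map_add, Finsupp.mapRange_add (map_add σ), map_add]
  map_smul' c f := by
    have h1 : Finsupp.mapRange σ (map_zero σ) (C.b.repr (c • f)) =
        σ c • Finsupp.mapRange σ (map_zero σ) (C.b.repr f) := by
      ext i
      simp
    rw [h1, map_smul]
    rfl

theorem repr_gA (σ : Qb ≃ₐ[ℚ] Qb) (f : A) (i : ℕ) :
    C.b.repr (gA C σ f) i = σ (C.b.repr f i) := by
  show C.b.repr (Finsupp.linearCombination Qb C.b
    (Finsupp.mapRange σ (map_zero σ) (C.b.repr f))) i = _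
  rw [Module.Basis.repr_linearCombination, Finsupp.mapRange_apply]

theorem gA_of_isRat (σ : Qb ≃ₐ[ℚ] Qb) {f : A} (hf : C.IsRat f) : gA C σ f = f := by
  apply C.b.repr.injective
  ext i
  rw [repr_gA]
  obtain ⟨r, hr⟩ := hf i
  rw [← hr]
  exact σ.commutes r

theorem isRat_of_gA {f : A} (h : ∀ σ : Qb ≃ₐ[ℚ] Qb, gA C σ f = f) : C.IsRat f := by
  intro i
  apply mem_range_of_fixed
  intro σ
  rw [← repr_gA, h σ]

theorem gA_b (σ : Qb ≃ₐ[ℚ] Qb) (i : ℕ) : gA C σ (C.b i) = C.b i := by
  apply C.b.repr.injective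
  ext j
  rw [repr_gA, Module.Basis.repr_self, Finsupp.single_apply]
  split_ifs <;> simp

theorem gA_b_mul_b (σ : Qb ≃ₐ[ℚ] Qb) (i j : ℕ) : gA C σ (C.b i * C.b j) = C.b i * C.b j := by
  obtain ⟨k, c, -, hk⟩ := C.mul_b i j
  rw [hk, map_add, gA_b, map_sum]
  congr 1
  refine Finset.sum_congr rfl fun l _ => ?_
  rw [map_smulₛₗ, gA_b]
  congr 1
  exact σ.commutes (c l)

theorem gA_b_mul (σ : Qb ≃ₐ[ℚ] Qb) (i : ℕ) (x : A) : gA C σ (C.b i * x) = C.b i * gA C σ x := by
  have h : (gA C σ).comp (LinearMap.mulLeft Qb (C.b i)) =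
      (LinearMap.mulLeft Qb (C.b i)).comp (gA C σ) := by
    apply C.b.ext
    intro j
    show gA C σ (C.b i * C.b j) = C.b i * gA C σ (C.b j)
    rw [gA_b_mul_b, gA_b]
  exact DFunLike.congr_fun h x

theorem gA_mul (σ : Qb ≃ₐ[ℚ] Qb) (f x : A) : gA C σ (f * x) = gA C σ f * gA C σ x := by
  have h : (gA C σ).comp (LinearMap.mulRight Qb x) =
      (LinearMap.mulRight Qb (gA C σ x)).comp (gA C σ) := by
    apply C.b.ext
    intro j
    show gA C σ (C.b j * x) = gA C σ (C.b j) * gA C σ x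
    rw [gA_b_mul, gA_b]
  exact DFunLike.congr_fun h f

/-- division of rational functions. -/
theorem isRat_of_mul [IsDomain A] {s x : A} (hs : C.IsRat s) (hs0 : s ≠ 0)
    (h : C.IsRat (s * x)) : C.IsRat x := by
  apply isRat_of_gA
  intro σ
  apply mul_left_cancel₀ hs0
  calc s * gA C σ x = gA C σ s * gA C σ x := by rw [gA_of_isRat C σ hs]
    _ = gA C σ (s * x) := (gA_mul C σ s x).symm
    _ = s * x := gA_of_isRat C σ h

end Fermat.Agent.S17.H.CI
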