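import Fermat.Agent.S17.H.ClassInv.Defs

/-!
# S17, route H, node (G3), section CI-1: rational coordinates.   Owner: helper296.
-/

set_option autoImplicit false

noncomputable section

open scoped Classical

namespace Fermat.Agent.S17.H.CI

open Fermat.Agent.S17.H Polynomial

variable (𝔳 : AbsFam) {A : Type} [CommRing A] [Algebra Qb A] (C : WCurve A)

/-- a finite initial segment of `ℕ` is `range` of its cardinality. -/
theorem lt_card_iff_of_lower (s : Finset ℕ) (hs : ∀ j ∈ s, ∀ i ≤ j, i ∈ s) (i : ℕ) :
    i < s.card ↔ i ∈ s := by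
  constructor
  · intro h
    by_contra hi
    have hsub : s ⊆ Finset.range i := by
      intro j hj
      rw [Finset.mem_range]
      by_contra hji
      exact hi (hs j hj i (not_lt.1 hji))
    have := Finset.card_le_card hsub
    rw [Finset.card_range] at this
    omega
  · intro hi
    have hsub : Finset.range (i + 1) ⊆ s := by
      intro j hj
      rw [Finset.mem_range] at hj
      exact hs i hi j (by omega)
    have := Finset.card_le_card hsub
    rw [Finset.card_range] at this
    omega

theorem lt_dim_iff (n i : ℕ) : i < C.dim n ↔ C.ρ i ≤ n := by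
  unfold WCurve.dim
  rw [lt_card_iff_of_lower]
  · rw [Finset.mem_filter, Finset.mem_range]
    constructor
    · exact fun h => h.2
    · intro h
      have := C.ρ_strictMono.le_apply (x := i)
      exact ⟨by omega, h⟩
  · intro j hj i hij
    rw [Finset.mem_filter, Finset.mem_range] at hj ⊢
    exact ⟨by omega, (C.ρ_strictMono.monotone hij).trans hj.2⟩

theorem repr_toA_apply (n : ℕ) (c : Fin (C.dim n) → ℚ) (i : ℕ) :
    C.b.repr (toA C n c) i = ∑ j : Fin (C.dim n), if (j : ℕ) = i then algebraMap ℚ Qb (c j) else 0 := by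
  unfold toA
  rw [map_sum, Finsupp.finsetSum_apply]
  refine Finset.sum_congr rfl fun j _ => ?_
  rw [map_smul, Module.Basis.repr_self, Finsupp.smul_apply, Finsupp.single_apply, smul_eq_mul]
  split_ifs <;> simp

theorem repr_toA (n : ℕ) (c : Fin (C.dim n) → ℚ) (i : Fin (C.dim n)) :
    C.b.repr (toA C n c) i = algebraMap ℚ Qb (c i) := by
  rw [repr_toA_apply, Finset.sum_eq_single i]
  · rw [if_pos rfl]
  · intro j _ hj
    rw [if_neg (fun h => hj (Fin.ext h))]
  · intro h
    exact absurd (Finset.mem_univ _) h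

theorem repr_toA_of_le (n : ℕ) (c : Fin (C.dim n) → ℚ) {i : ℕ} (hi : C.dim n ≤ i) :
    C.b.repr (toA C n c) i = 0 := by
  rw [repr_toA_apply]
  refine Finset.sum_eq_zero fun j _ => ?_
  rw [if_neg]
  have := j.2
  omega

theorem isRat_toA (n : ℕ) (c : Fin (C.dim n) → ℚ) : C.IsRat (toA C n c) := by
  intro i
  by_cases hi : i < C.dim n
  · exact ⟨c ⟨i, hi⟩, (repr_toA C n c ⟨i, hi⟩).symm⟩
  · exact ⟨0, by rw [repr_toA_of_le C n c (not_lt.1 hi), map_zero]⟩

theorem toA_mem_V (n : ℕ) (c : Fin (C.dim n) → ℚ) : toA C n c ∈ C.V n := by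
  unfold toA
  refine Submodule.sum_mem _ fun i _ => Submodule.smul_mem _ _ (Submodule.subset_span ?_)
  exact ⟨i, (lt_dim_iff C n i).1 i.2, rfl⟩

theorem toA_injective (n : ℕ) : Function.Injective (toA C n) := by
  intro c c' h
  funext i
  have h1 := repr_toA C n c i
  rw [h, repr_toA C n c' i] at h1
  exact ((algebraMap ℚ Qb).injective h1).symm

theorem toA_zero (n : ℕ) : toA C n 0 = 0 := by
  simp [toA]

/-- an element of `V_n` is the combination of the `b i`, `i < dim n`, given by its coordinates. -/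
theorem eq_sum_crd {n : ℕ} {f : A} (hV : f ∈ C.V n) :
    f = ∑ i : Fin (C.dim n), C.b.repr f i • C.b i := by
  have hsupp : (C.b.repr f).support ⊆ Finset.range (C.dim n) := by
    have h := (Module.Basis.mem_span_image C.b).1 hV
    intro i hi
    rw [Finset.mem_range, lt_dim_iff]
    exact h hi
  have h1 : f = ∑ i ∈ (C.b.repr f).support, C.b.repr f i • C.b i := by
    conv_lhs => rw [← C.b.linearCombination_repr f]
    rw [Finsupp.linearCombination_apply, Finsupp.sum]
  have h2 : ∑ i ∈ (C.b.repr f).support, C.b.repr f i • C.b i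
      = ∑ i ∈ Finset.range (C.dim n), C.b.repr f i • C.b i := by
    refine Finset.sum_subset hsupp fun i _ hi => ?_
    rw [Finsupp.notMem_support_iff.1 hi, zero_smul]
  rw [Fin.sum_univ_eq_sum_range (fun i => C.b.repr f i • C.b i), ← h2]
  exact h1

theorem exists_toA_eq {n : ℕ} {f : A} (hf : C.IsRat f) (hV : f ∈ C.V n) :
    ∃ c : Fin (C.dim n) → ℚ, toA C n c = f := by
  choose c hc using hf
  refine ⟨fun i => c i, ?_⟩
  rw [eq_sum_crd C hV]
  unfold toA
  refine Finset.sum_congr rfl fun i _ => ?_
  rw [hc]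

/-- i.e. `crd C n (toA C n c) = ratVec c` (`crd` unfolded so that the file does not need it). -/
theorem crd_toA (n : ℕ) (c : Fin (C.dim n) → ℚ) :
    (fun i : Fin (C.dim n) => C.b.repr (toA C n c) i) = ratVec c := by
  funext i
  exact repr_toA C n c i

theorem apply_toA (n : ℕ) (c : Fin (C.dim n) → ℚ) (P : Pt A) :
    P (toA C n c) = ∑ k : Fin (C.dim n), P (C.b k) * algebraMap ℚ Qb (c k) := by
  unfold toA
  rw [map_sum]
  refine Finset.sum_congr rfl fun k _ => ?_
  rw [map_smul, smul_eq_mul, mul_comm]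

theorem mem_solSp_iff (n : ℕ) (E : Finset (Pt A)) (c : Fin (C.dim n) → ℚ) :
    c ∈ solSp C n E ↔ toA C n c ∈ idealOf E := by
  rw [mem_solSp]
  unfold idealOf
  simp only [Submodule.mem_iInf, RingHom.mem_ker]
  constructor
  · intro h P hP
    have := h ⟨P, hP⟩
    change P (toA C n c) = 0
    rw [apply_toA]
    exact this
  · intro h P
    have := h P.1 P.2
    change P.1 (toA C n c) = 0 at this
    rw [apply_toA] at this
    exact this

end Fermat.Agent.S17.H.CI
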