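import Fermat.Agent.S17.H.ClassInv.Defs

/-!
# S17, route H, node (G3), section CI-4: the rational structure constants `sc`

* `b_mul_b`      : `b_a b_k = ∑_{k'} sc a k k' • b_{k'}` for `a < dim μ`, `k < dim n`, `μ + n ≤ M`
* `sum_mul_sum_eq` : the bilinear version over `ℚ̄`
* `toA_mulMap`, `sc_nzd`
Owner: helper244.
-/

set_option autoImplicit false

noncomputable section

open scoped Classical

namespace Fermat.Agent.S17.H.CI

open Fermat.Agent.S17.H Polynomial

variable (𝔳 : AbsFam) {A : Type} [CommRing A] [Algebra Qb A] (C : WCurve A)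

/-- private copy of `lt_dim_iff` (section CI-1), so that this file only needs the definitions. -/
theorem lt_dim_iff_aux (n i : ℕ) : i < C.dim n ↔ C.ρ i ≤ n := by
  have hid : ∀ j, j ≤ C.ρ j := fun j => C.ρ_strictMono.le_apply
  constructor
  · intro hi
    by_contra hcon
    have hsub : ((Finset.range (n + 1)).filter fun j => C.ρ j ≤ n) ⊆ Finset.range i := by
      intro j hj
      rw [Finset.mem_filter] at hj
      rw [Finset.mem_range]
      exact C.ρ_strictMono.lt_iff_lt.mp (lt_of_le_of_lt hj.2 (not_le.mp hcon))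
    have := Finset.card_le_card hsub
    rw [Finset.card_range] at this
    exact absurd hi (not_lt.mpr this)
  · intro hi
    have hsub : Finset.range (i + 1) ⊆ ((Finset.range (n + 1)).filter fun j => C.ρ j ≤ n) := by
      intro j hj
      rw [Finset.mem_range] at hj
      have h1 : C.ρ j ≤ n := le_trans (C.ρ_strictMono.monotone (Nat.lt_succ_iff.mp hj)) hi
      rw [Finset.mem_filter, Finset.mem_range]
      exact ⟨Nat.lt_succ_of_le (le_trans (hid j) h1), h1⟩
    have := Finset.card_le_card hsub
    rw [Finset.card_range] at this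
    exact this

/-- coordinates of a finite combination of the first basis vectors -/
theorem repr_sum_range (N : ℕ) (e : ℕ → Qb) (l : ℕ) :
    C.b.repr (∑ i ∈ Finset.range N, e i • C.b i) l = if l < N then e l else 0 := by
  simp only [map_sum, map_smul, Module.Basis.repr_self, Finsupp.coe_finsetSum, Finset.sum_apply,
    Finsupp.smul_apply, Finsupp.single_apply, smul_eq_mul, mul_ite, mul_one, mul_zero,
    Finset.sum_ite_eq', Finset.mem_range]

/-- an element whose coordinates vanish from `N` on is the combination of the first `N` basis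
vectors given by its coordinates -/
theorem eq_sum_fin_of_repr_eq_zero (N : ℕ) (f : A) (h : ∀ l, N ≤ l → C.b.repr f l = 0) :
    f = ∑ i : Fin N, C.b.repr f i • C.b i := by
  have hs : (C.b.repr f).support ⊆ Finset.range N := by
    intro l hl
    rw [Finset.mem_range]
    by_contra hcon
    exact (Finsupp.mem_support_iff.mp hl) (h l (not_lt.mp hcon))
  have h1 : f = ∑ i ∈ Finset.range N, C.b.repr f i • C.b i := by
    conv_lhs => rw [← C.b.linearCombination_repr f, Finsupp.linearCombination_apply]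
    exact Finsupp.sum_of_support_subset _ hs (fun i a => a • C.b i) (fun i _ => zero_smul _ _)
  conv_lhs => rw [h1]
  exact Finset.sum_range fun i => C.b.repr f i • C.b i

/-- the coordinates of `b_i b_k` are rational and vanish above the index `j` with
`ρ j = ρ i + ρ k` -/
theorem exists_repr_b_mul_b (i k : ℕ) : ∃ (j : ℕ) (e : ℕ → ℚ), C.ρ j = C.ρ i + C.ρ k ∧
    (∀ l, C.b.repr (C.b i * C.b k) l = algebraMap ℚ Qb (e l)) ∧ ∀ l, j < l → e l = 0 := by
  obtain ⟨j, c, hρ, hmul⟩ := C.mul_b i k
  let c' : ℕ → ℚ := fun l => if l = j then 1 else c l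
  have h1 : C.b i * C.b k = ∑ l ∈ Finset.range (j + 1), algebraMap ℚ Qb (c' l) • C.b l := by
    rw [hmul, Finset.sum_range_succ, add_comm]
    congr 1
    · refine Finset.sum_congr rfl fun l hl => ?_
      have : l ≠ j := (Finset.mem_range.mp hl).ne
      simp only [c', if_neg this]
    · simp only [c', if_true, map_one, one_smul]
  refine ⟨j, fun l => if l < j + 1 then c' l else 0, hρ, fun l => ?_, fun l hl => ?_⟩
  · rw [h1, repr_sum_range]
    by_cases hl : l < j + 1
    · simp only [if_pos hl]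
    · simp only [if_neg hl, map_zero]
  · exact if_neg (by omega)

theorem algebraMap_sc (μ n M : ℕ) (a : Fin (C.dim μ)) (k : Fin (C.dim n)) (k' : Fin (C.dim M)) :
    algebraMap ℚ Qb (sc C μ n M a k k') = C.b.repr (C.b a * C.b k) k' := by
  obtain ⟨j, e, -, he, -⟩ := exists_repr_b_mul_b C a k
  have h : ∃ q : ℚ, algebraMap ℚ Qb q = C.b.repr (C.b a * C.b k) k' := ⟨e k', (he k').symm⟩
  have h1 : sc C μ n M a k k' = h.choose := dif_pos h
  rw [h1]
  exact h.choose_spec

/-- **Key lemma**: expansion of the products of basis vectors. -/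
theorem b_mul_b {μ n M : ℕ} (h : μ + n ≤ M) (a : Fin (C.dim μ)) (k : Fin (C.dim n)) :
    C.b a * C.b k = ∑ k' : Fin (C.dim M), algebraMap ℚ Qb (sc C μ n M a k k') • C.b k' := by
  obtain ⟨j, e, hρ, he, he0⟩ := exists_repr_b_mul_b C a k
  have ha : C.ρ a ≤ μ := (lt_dim_iff_aux C μ a).mp a.2
  have hk : C.ρ k ≤ n := (lt_dim_iff_aux C n k).mp k.2
  have hj : j < C.dim M := (lt_dim_iff_aux C M j).mpr (by omega)
  have h0 : ∀ l, C.dim M ≤ l → C.b.repr (C.b a * C.b k) l = 0 := by
    intro l hl
    rw [he l, he0 l (lt_of_lt_of_le hj hl), map_zero]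
  conv_lhs => rw [eq_sum_fin_of_repr_eq_zero C (C.dim M) _ h0]
  exact Finset.sum_congr rfl fun k' _ => by rw [algebraMap_sc]

/-- the multiplication `V_μ × V_n → V_M` in coordinates, over `ℚ̄` -/
theorem sum_mul_sum_eq {μ n M : ℕ} (h : μ + n ≤ M) (x : Fin (C.dim μ) → Qb)
    (y : Fin (C.dim n) → Qb) :
    (∑ a, x a • C.b a) * (∑ k, y k • C.b k) =
      ∑ k', (∑ a, ∑ k, algebraMap ℚ Qb (sc C μ n M a k k') * x a * y k) • C.b k' := by
  calc (∑ a, x a • C.b a) * (∑ k, y k • C.b k)
      = ∑ a, ∑ k, ∑ k', (algebraMap ℚ Qb (sc C μ n M a k k') * x a * y k) • C.b k' := by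
        rw [Finset.sum_mul_sum]
        refine Finset.sum_congr rfl fun a _ => Finset.sum_congr rfl fun k _ => ?_
        rw [smul_mul_smul_comm, b_mul_b C h a k, Finset.smul_sum]
        refine Finset.sum_congr rfl fun k' _ => ?_
        rw [smul_smul]
        congr 1
        ring
    _ = ∑ a, ∑ k', ∑ k, (algebraMap ℚ Qb (sc C μ n M a k k') * x a * y k) • C.b k' :=
        Finset.sum_congr rfl fun a _ => Finset.sum_comm
    _ = ∑ k', ∑ a, ∑ k, (algebraMap ℚ Qb (sc C μ n M a k k') * x a * y k) • C.b k' :=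
        Finset.sum_comm
    _ = _ := by
        refine Finset.sum_congr rfl fun k' _ => ?_
        rw [Finset.sum_smul]
        exact Finset.sum_congr rfl fun a _ => (Finset.sum_smul).symm

theorem toA_mulMap {μ n M : ℕ} (h : μ + n ≤ M) (s : Fin (C.dim μ) → ℚ) (y : Fin (C.dim n) → ℚ) :
    toA C M (mulMap (sc C μ n M) s y) = toA C μ s * toA C n y := by
  unfold toA
  rw [sum_mul_sum_eq C h]
  refine Finset.sum_congr rfl fun k' _ => ?_
  congr 1
  show algebraMap ℚ Qb (∑ a, ∑ k, sc C μ n M a k k' * s a * y k) = _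
  rw [map_sum]
  refine Finset.sum_congr rfl fun a _ => ?_
  rw [map_sum]
  exact Finset.sum_congr rfl fun k _ => by rw [map_mul, map_mul]

theorem sc_nzd [IsDomain A] {μ n M : ℕ} (h : μ + n ≤ M) (x : Fin (C.dim μ) → Qb)
    (y : Fin (C.dim n) → Qb)
    (hxy : ∀ k', ∑ a, ∑ k, algebraMap ℚ Qb (sc C μ n M a k k') * x a * y k = 0) :
    x = 0 ∨ y = 0 := by
  have hprod : (∑ a, x a • C.b a) * (∑ k, y k • C.b k) = 0 := by
    rw [sum_mul_sum_eq C h x y]
    exact Finset.sum_eq_zero fun k' _ => by rw [hxy k', zero_smul]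
  have hli : ∀ N : ℕ, LinearIndependent Qb (fun i : Fin N => C.b i) := fun N =>
    C.b.linearIndependent.comp _ Fin.val_injective
  rcases mul_eq_zero.mp hprod with h0 | h0
  · left
    funext a
    exact Fintype.linearIndependent_iff.mp (hli _) x h0 a
  · right
    funext k
    exact Fintype.linearIndependent_iff.mp (hli _) y h0 k

end Fermat.Agent.S17.H.CI
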