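import Fermat.Agent.S17.H.ClassInv.Defs
import Fermat.Agent.S17.H.Weight
import Fermat.Agent.S17.H.NormBasic
import Fermat.Agent.S17.H.NormQuot
import Fermat.Agent.S17.H.ClassInv.Coord
import Fermat.Agent.S17.H.ClassInv.Gal
import Fermat.Agent.S17.H.ClassInv.MulConst

/-!
# S17, route H, node (G3), sub-node CI-5: weights and the equality of the two image subspaces
-/

set_option autoImplicit false

noncomputable section

open scoped Classical

namespace Fermat.Agent.S17.H.CI

open Fermat.Agent.S17.H Polynomial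

variable (𝔳 : AbsFam) {A : Type} [CommRing A] [Algebra Qb A] (C : WCurve A)

theorem natDegree_chi (E : Finset (Pt A)) : (chi C E).natDegree = E.card := by
  unfold chi
  rw [Polynomial.natDegree_prod_of_monic _ _ (fun P _ => monic_X_sub_C _)]
  simp

theorem chi_ne_zero (E : Finset (Pt A)) : chi C E ≠ 0 := by
  unfold chi
  exact (monic_prod_of_monic _ _ (fun P _ => monic_X_sub_C _)).ne_zero

theorem Nm_ne_zero_of_ne_zero {s : A} (hs : s ≠ 0) : Nm C s ≠ 0 := by
  intro h0
  have hl : C.lc s ^ C.d ≠ 0 := pow_ne_zero _ (lc_ne_zero C hs)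
  rcases leadingCoeff_Nm C hs with h | h
  · rw [h0, leadingCoeff_zero] at h
    exact hl h.symm
  · rw [h0, leadingCoeff_zero] at h
    exact hl (neg_eq_zero.1 h.symm)

theorem wt_add_card_of_equiv (E E' : Finset (Pt A)) {s s' : A} (hs : s ≠ 0) (hs' : s' ≠ 0)
    (h : Ideal.span {s'} * idealOf E = Ideal.span {s} * idealOf E') :
    C.wt s' + E.card = C.wt s + E'.card := by
  obtain ⟨c, hc, he⟩ := Nm_mul_chi_of_equiv C E E' hs hs' h
  have h1 := congrArg Polynomial.natDegree he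
  rw [natDegree_C_mul hc, natDegree_mul (Nm_ne_zero_of_ne_zero C hs') (chi_ne_zero C E),
    natDegree_mul (Nm_ne_zero_of_ne_zero C hs) (chi_ne_zero C E'), natDegree_chi, natDegree_chi,
    natDegree_Nm C hs, natDegree_Nm C hs'] at h1
  exact h1

theorem toA_ne_zero_of_ne_zero {n : ℕ} {c : Fin (C.dim n) → ℚ} (hc : c ≠ 0) : toA C n c ≠ 0 := by
  intro h0
  apply hc
  apply toA_injective C n
  rw [h0, toA_zero]

theorem map_solSp_le [IsDomain A] {E E' : Finset (Pt A)} {μ n n' M : ℕ} (hn : μ + n ≤ M)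
    (hn' : μ + n' ≤ M) (hnn : n + E'.card = n' + E.card) (σ σ' : Fin (C.dim μ) → ℚ) (hσ : σ ≠ 0)
    (hσ' : σ' ≠ 0)
    (h : Ideal.span {toA C μ σ'} * idealOf E = Ideal.span {toA C μ σ} * idealOf E') :
    (solSp C n E).map (mulMap (sc C μ n M) σ') ≤ (solSp C n' E').map (mulMap (sc C μ n' M) σ) := by
  rintro _ ⟨y, hy, rfl⟩
  have hs0 : toA C μ σ ≠ 0 := toA_ne_zero_of_ne_zero C hσ
  have hs0' : toA C μ σ' ≠ 0 := toA_ne_zero_of_ne_zero C hσ'
  have hf : toA C n y ∈ idealOf E := (mem_solSp_iff C n E y).1 hy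
  have hmem : toA C μ σ' * toA C n y ∈ Ideal.span {toA C μ σ} * idealOf E' := by
    rw [← h]
    exact Ideal.mul_mem_mul (Ideal.mem_span_singleton_self _) hf
  obtain ⟨f', hf', hff'⟩ := Ideal.mem_span_singleton_mul.1 hmem
  have hrat : C.IsRat f' := by
    refine isRat_of_mul C (isRat_toA C μ σ) hs0 ?_
    rw [hff']
    exact isRat_mul C (isRat_toA C μ σ') (isRat_toA C n y)
  have hV : f' ∈ C.V n' := by
    rw [mem_V_iff]
    by_cases hf0 : toA C n y = 0
    · rw [hf0, mul_zero] at hff'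
      have : f' = 0 := (mul_eq_zero.1 hff').resolve_left hs0
      rw [this]
      simp [WCurve.wt]
    · have hf0' : f' ≠ 0 := by
        rintro rfl
        rw [mul_zero] at hff'
        exact mul_ne_zero hs0' hf0 hff'.symm
      have w1 := wt_mul C hs0 hf0'
      have w2 := wt_mul C hs0' hf0
      rw [hff'] at w1
      have w3 := wt_add_card_of_equiv C E E' hs0 hs0' h
      have w4 : C.wt (toA C n y) ≤ n := (mem_V_iff C n _).1 (toA_mem_V C n y)
      omega
  obtain ⟨y', hy'⟩ := exists_toA_eq C hrat hV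
  refine ⟨y', (mem_solSp_iff C n' E' y').2 (by rw [hy']; exact hf'), ?_⟩
  apply toA_injective C M
  rw [toA_mulMap C hn', toA_mulMap C hn, hy', hff']

theorem map_solSp_eq [IsDomain A] {E E' : Finset (Pt A)} {μ n n' M : ℕ} (hn : μ + n ≤ M)
    (hn' : μ + n' ≤ M) (hnn : n + E'.card = n' + E.card) (σ σ' : Fin (C.dim μ) → ℚ) (hσ : σ ≠ 0)
    (hσ' : σ' ≠ 0)
    (h : Ideal.span {toA C μ σ'} * idealOf E = Ideal.span {toA C μ σ} * idealOf E') :
    (solSp C n E).map (mulMap (sc C μ n M) σ') = (solSp C n' E').map (mulMap (sc C μ n' M) σ) :=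
  le_antisymm (map_solSp_le C hn hn' hnn σ σ' hσ hσ' h)
    (map_solSp_le C hn' hn hnn.symm σ' σ hσ' hσ h.symm)

end Fermat.Agent.S17.H.CI
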