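import Fermat.Agent.S17.H.ClassInv.HtPoly
import Fermat.Agent.S17.H.ClassInv.Image
import Fermat.Agent.S17.H.ClassInv.Gal
import Fermat.Agent.S17.H.NormQuot
import Fermat.Agent.S17.H.NormBasic

/-! # S17/H, node (G3), section CI-6 (second part): `ht(s) - ht(s') = hE(E) - hE(E') + O(1)`
for a linear equivalence `s' I(E) = s I(E')` with rational multipliers (helper129). -/

set_option autoImplicit false

noncomputable section

open scoped Classical

namespace Fermat.Agent.S17.H.CI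

open Fermat.Agent.S17.H Polynomial

variable (𝔳 : AbsFam) {A : Type} [CommRing A] [Algebra Qb A] (C : WCurve A)

/-- a proportionality constant between nonzero rational polynomials is rational -/
theorem HtDiff.exists_rat_const {p q : ℚ[X]} {c : Qb} (hq : q ≠ 0)
    (h : p.map (algebraMap ℚ Qb) = Polynomial.C c * q.map (algebraMap ℚ Qb)) :
    ∃ r : ℚ, c = algebraMap ℚ Qb r := by
  have hl : q.leadingCoeff ≠ 0 := leadingCoeff_ne_zero.2 hq
  have h1 := congrArg (fun f => f.coeff q.natDegree) h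
  simp only [coeff_map, coeff_C_mul] at h1
  refine ⟨p.coeff q.natDegree / q.leadingCoeff, ?_⟩
  rw [map_div₀, h1]
  have : algebraMap ℚ Qb q.leadingCoeff ≠ 0 := by simpa using hl
  rw [coeff_natDegree]
  field_simp

theorem ht_sub_ht (μ emax : ℕ) : ∃ Cst : ℝ, ∀ E E' : Finset (Pt A), C.GalStable E →
    C.GalStable E' → E.card ≤ emax → E'.card ≤ emax → ∀ s s' : A, C.IsRat s → C.IsRat s' →
    s ≠ 0 → s' ≠ 0 → s ∈ C.V μ → s' ∈ C.V μ →
    Ideal.span {s'} * idealOf E = Ideal.span {s} * idealOf E' →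
    |ht 𝔳 (crd C μ s) - ht 𝔳 (crd C μ s') - (C.hE 𝔳 E - C.hE 𝔳 E')| ≤ Cst := by
  obtain ⟨N, hN⟩ : ∃ N, N = μ + emax := ⟨_, rfl⟩
  obtain ⟨K1, hK1⟩ := ht_cvec_mul 𝔳 N
  obtain ⟨K2, hK2⟩ := ht_cvec_Nm 𝔳 C μ
  obtain ⟨K3, hK3⟩ := ht_cvec_chi 𝔳 C emax
  have hd : 0 < C.d := d_pos C
  have hdR : (0 : ℝ) < C.d := by exact_mod_cast hd
  refine ⟨(2 * K1 + 2 * K2 + 2 * K3) / C.d, ?_⟩
  intro E E' hE hE' he he' s s' hs hs' hs0 hs0' hV hV' h
  obtain ⟨c, hc, hcc⟩ := Nm_mul_chi_of_equiv C E E' hs0 hs0' h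
  obtain ⟨p, hp⟩ := Nm_isRat C hs
  obtain ⟨p', hp'⟩ := Nm_isRat C hs'
  obtain ⟨q, hq⟩ := chi_isRat C hE
  obtain ⟨q', hq'⟩ := chi_isRat C hE'
  have hq1 : chi C E = q.map (algebraMap ℚ Qb) := hq
  have hq1' : chi C E' = q'.map (algebraMap ℚ Qb) := hq'
  have n0 : Nm C s ≠ 0 := Nm_ne_zero_of_ne_zero C hs0
  have n0' : Nm C s' ≠ 0 := Nm_ne_zero_of_ne_zero C hs0'
  have x0 : chi C E ≠ 0 := chi_ne_zero C E
  have x0' : chi C E' ≠ 0 := chi_ne_zero C E'
  obtain ⟨r, hr⟩ : ∃ r : ℚ, c = algebraMap ℚ Qb r := by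
    refine HtDiff.exists_rat_const (p := p' * q) (q := p * q') ?_ ?_
    · intro h0
      have : Nm C s * chi C E' = 0 := by
        rw [hp, hq1', ← Polynomial.map_mul, h0, Polynomial.map_zero]
      exact mul_ne_zero n0 x0' this
    · rw [Polynomial.map_mul, Polynomial.map_mul, ← hp, ← hp', ← hq1, ← hq1']
      exact hcc
  have hr0 : r ≠ 0 := by
    rintro rfl
    exact hc (by rw [hr, map_zero])
  have d1 : (Nm C s).natDegree ≤ μ := by
    rw [natDegree_Nm C hs0]; exact (mem_V_iff C μ s).1 hV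
  have d1' : (Nm C s').natDegree ≤ μ := by
    rw [natDegree_Nm C hs0']; exact (mem_V_iff C μ s').1 hV'
  have d2 : (chi C E).natDegree ≤ emax := by rw [natDegree_chi]; exact he
  have d2' : (chi C E').natDegree ≤ emax := by rw [natDegree_chi]; exact he'
  have a1 := hK1 (Nm C s') (chi C E) n0' x0 (by rw [natDegree_mul n0' x0]; omega)
  have a2 := hK1 (Nm C s) (chi C E') n0 x0' (by rw [natDegree_mul n0 x0']; omega)
  have a3 : ht 𝔳 (cvec N (Nm C s' * chi C E)) = ht 𝔳 (cvec N (Nm C s * chi C E')) := by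
    rw [hcc, hr, ht_cvec_C_mul 𝔳 N hr0]
  rw [ht_cvec_eq 𝔳 (n := N) (m := μ) (by omega) d1', ht_cvec_eq 𝔳 (n := N) (m := emax) (by omega) d2,
    a3] at a1
  rw [ht_cvec_eq 𝔳 (n := N) (m := μ) (by omega) d1, ht_cvec_eq 𝔳 (n := N) (m := emax) (by omega) d2']
    at a2
  have b1 := hK2 s hs0 hV
  have b1' := hK2 s' hs0' hV'
  have b2 := hK3 E he
  have b2' := hK3 E' he'
  rw [abs_le] at a1 a2 b1 b1' b2 b2' ⊢
  rw [le_div_iff₀ hdR, ← neg_div, div_le_iff₀ hdR]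
  constructor <;> nlinarith [a1.1, a1.2, a2.1, a2.2, b1.1, b1.2, b1'.1, b1'.2, b2.1, b2.2, b2'.1, b2'.2]

end Fermat.Agent.S17.H.CI
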