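import Fermat.Agent.S17.H.ClassInv.Defs
import Fermat.Agent.S17.H.Dual
import Fermat.Agent.S17.H.Semigroup
import Fermat.Agent.S17.H.Indep
import Fermat.Agent.S17.H.ClassInv.Coord
import Fermat.Agent.S17.H.ClassInv.Gal

/-!
# S17, route H, node (G3), section CI-3: `Φ_n(E)` is the height of the rational solution space
(task S17-H-CI3, helper68)

(swap to the landed nodes: helper129)
-/

set_option autoImplicit false

noncomputable section

open scoped Classical

namespace Fermat.Agent.S17.H.CI

open Fermat.Agent.S17.H Polynomial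

variable (𝔳 : AbsFam) {A : Type} [CommRing A] [Algebra Qb A] (C : WCurve A)

theorem finrank_solSp {E : Finset (Pt A)} (hE : C.GalStable E) {n : ℕ}
    (hn : E.card + 2 * C.g ≤ n + 1) :
    Module.finrank ℚ (solSp C n E) + E.card + C.g = n + 1 := by
  have h := finrank_add_card_of_galois (C.evMat n E) (exists_perm_of_galStable C hE n)
    (linearIndependent_evMat C E hn) (solSp C n E) (mem_solSp C n E)
  rw [Fintype.card_coe, Fintype.card_fin] at h
  have h2 := dim_add_g C (n := n) (by omega)
  omega

theorem subHt_solSp {E : Finset (Pt A)} (hE : C.GalStable E) {n : ℕ}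
    (hn : E.card + 2 * C.g ≤ n + 1) : subHt 𝔳 (solSp C n E) = C.Phi 𝔳 n E := by
  have h := (subHt_dual 𝔳 (C.evMat n E) (exists_perm_of_galStable C hE n)
    (linearIndependent_evMat C E hn) (solSp C n E) (mem_solSp C n E)).2
  rw [h]
  unfold WCurve.Phi
  congr

/-- there is a nonzero rational function in `V_n ∩ I(E)` as soon as `n ≥ e + 2 g - 1`, `n ≥ e + g`. -/
theorem exists_isRat_mem_idealOf {E : Finset (Pt A)} (hE : C.GalStable E) {n : ℕ}
    (hn : E.card + 2 * C.g ≤ n + 1) (hn' : E.card + C.g ≤ n) :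
    ∃ f : A, C.IsRat f ∧ f ≠ 0 ∧ f ∈ C.V n ∧ f ∈ idealOf E := by
  have h := finrank_solSp C hE hn
  have hpos : 0 < Module.finrank ℚ (solSp C n E) := by omega
  have : Nontrivial (solSp C n E) := Module.nontrivial_of_finrank_pos hpos
  obtain ⟨c, hc⟩ := exists_ne (0 : solSp C n E)
  refine ⟨toA C n c.1, isRat_toA C n c.1, ?_, toA_mem_V C n c.1,
    (mem_solSp_iff C n E c.1).1 c.2⟩
  intro h0
  apply hc
  apply Subtype.ext
  apply toA_injective C n
  rw [h0]
  exact (toA_zero C n).symm

end Fermat.Agent.S17.H.CI
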