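import Fermat.Agent.S17.H.ClassInv.Defs
import Fermat.Agent.S17.H.Weight
import Fermat.Agent.S17.H.ClassInv.Gal
import Fermat.Agent.S17.H.ClassInv.SolSp
import Fermat.Agent.S17.H.ClassInv.Image

/-!
# S17, route H, node (G3), section CI-7: reduction of a linear equivalence to multipliers of
bounded weight.
-/

set_option autoImplicit false

noncomputable section

open scoped Classical

namespace Fermat.Agent.S17.H.CI

open Fermat.Agent.S17.H Polynomial

variable (𝔳 : AbsFam) {A : Type} [CommRing A] [Algebra Qb A] (C : WCurve A)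

theorem exists_bounded_equiv [IsDedekindDomain A] {E E' : Finset (Pt A)} (hE : C.GalStable E)
    (hE' : C.GalStable E') {s s' : A} (hs : C.IsRat s) (hs' : C.IsRat s') (hs0 : s ≠ 0)
    (hs0' : s' ≠ 0) (h : Ideal.span {s'} * idealOf E = Ideal.span {s} * idealOf E') :
    ∃ s₁ s₁' : A, C.IsRat s₁ ∧ C.IsRat s₁' ∧ s₁ ≠ 0 ∧ s₁' ≠ 0 ∧ s₁ ∈ C.V (E.card + 2 * C.g) ∧
      s₁' ∈ C.V (E'.card + 2 * C.g) ∧
      Ideal.span {s₁'} * idealOf E = Ideal.span {s₁} * idealOf E' := by
  obtain ⟨s₁', r₁', z₁', v₁', m₁'⟩ :=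
    exists_isRat_mem_idealOf C hE' (n := E'.card + 2 * C.g) (by omega) (by omega)
  have hmem : s * s₁' ∈ Ideal.span {s'} * idealOf E := by
    rw [h]
    exact Ideal.mul_mem_mul (Ideal.mem_span_singleton_self s) m₁'
  obtain ⟨s₁, -, hs₁⟩ := Ideal.mem_span_singleton_mul.1 hmem
  have r₁ : C.IsRat s₁ :=
    isRat_of_mul C hs' hs0' (by rw [hs₁]; exact isRat_mul C hs r₁')
  have z₁ : s₁ ≠ 0 := by
    rintro rfl
    rw [mul_zero] at hs₁
    exact mul_ne_zero hs0 z₁' hs₁.symm
  have hnew : Ideal.span {s₁'} * idealOf E = Ideal.span {s₁} * idealOf E' := by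
    have hne : (Ideal.span {s'} : Ideal A) ≠ 0 := by
      rw [Ne, Ideal.zero_eq_bot, Ideal.span_singleton_eq_bot]
      exact hs0'
    apply mul_left_cancel₀ hne
    calc Ideal.span {s'} * (Ideal.span {s₁'} * idealOf E)
        = Ideal.span {s₁'} * (Ideal.span {s'} * idealOf E) := by rw [mul_left_comm]
      _ = Ideal.span {s₁'} * (Ideal.span {s} * idealOf E') := by rw [h]
      _ = Ideal.span {s * s₁'} * idealOf E' := by
          rw [← mul_assoc, Ideal.span_singleton_mul_span_singleton, mul_comm s₁' s]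
      _ = Ideal.span {s' * s₁} * idealOf E' := by rw [hs₁]
      _ = Ideal.span {s'} * (Ideal.span {s₁} * idealOf E') := by
          rw [← Ideal.span_singleton_mul_span_singleton, mul_assoc]
  have hw := wt_add_card_of_equiv C E E' z₁ z₁' hnew
  have hv := (mem_V_iff C _ _).1 v₁'
  exact ⟨s₁, s₁', r₁, r₁', z₁, z₁', (mem_V_iff C _ _).2 (by omega), v₁', hnew⟩

end Fermat.Agent.S17.H.CI
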