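import Fermat.Agent.S17.H.Curve

/-!
# S17, route H, node (G3) and friends: rational coordinates, rational solution spaces,
structure constants.   Definitions only.  Owner: helper129.

* `toA C n c`     : the rational function `∑ c_i b_i ∈ V_n` with coordinates `c : Fin (dim n) → ℚ`
* `solSp C n E`   : rational solutions of the linear system `evMat n E` (= coordinates of the rational
                    elements of `V_n ∩ I(E)`)
* `sc C μ n M`    : rational structure constants of the multiplication `V_μ × V_n → V_M`
-/

set_option autoImplicit false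

noncomputable section

open scoped Classical

namespace Fermat.Agent.S17.H.CI

variable {A : Type} [CommRing A] [Algebra Qb A] (C : WCurve A)

/-- the element of `V_n` with given rational coordinates. -/
def toA (n : ℕ) (c : Fin (C.dim n) → ℚ) : A := ∑ i, algebraMap ℚ Qb (c i) • C.b i

/-- the space of rational solutions of the linear system `evMat n E`. -/
def solSp (n : ℕ) (E : Finset (Pt A)) : Submodule ℚ (Fin (C.dim n) → ℚ) where
  carrier := {c | ∀ P : E, ∑ k, C.evMat n E P k * algebraMap ℚ Qb (c k) = 0}
  add_mem' := by
    intro a b ha hb P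
    have h1 := ha P
    have h2 := hb P
    simp only [Pi.add_apply, map_add, mul_add, Finset.sum_add_distrib, h1, h2, add_zero]
  zero_mem' := by
    intro P
    simp
  smul_mem' := by
    intro r a ha P
    have h1 := ha P
    have h2 : ∑ k, C.evMat n E P k * algebraMap ℚ Qb ((r • a) k)
        = algebraMap ℚ Qb r * ∑ k, C.evMat n E P k * algebraMap ℚ Qb (a k) := by
      rw [Finset.mul_sum]
      refine Finset.sum_congr rfl fun k _ => ?_
      rw [Pi.smul_apply, smul_eq_mul, map_mul]
      ring
    rw [h2, h1, mul_zero]

theorem mem_solSp (n : ℕ) (E : Finset (Pt A)) (c : Fin (C.dim n) → ℚ) :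
    c ∈ solSp C n E ↔ ∀ P : E, ∑ k, C.evMat n E P k * algebraMap ℚ Qb (c k) = 0 := Iff.rfl

/-- rational structure constants of the multiplication `V_μ × V_n → V_M` (junk value `0` if a
coordinate of `b_a b_k` is not rational, which never happens). -/
def sc (μ n M : ℕ) : Fin (C.dim μ) → Fin (C.dim n) → Fin (C.dim M) → ℚ := fun a k k' =>
  if h : ∃ q : ℚ, algebraMap ℚ Qb q = C.b.repr (C.b a * C.b k) k' then h.choose else 0

end Fermat.Agent.S17.H.CI
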