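import Fermat.Agent.S17.H.ClassInv.Defs
import Fermat.Agent.S17.H.AbsBasic
import Fermat.Agent.S17.H.ProdFormula
import Fermat.Agent.S17.H.PolyLocal
import Fermat.Agent.S17.H.Weight
import Fermat.Agent.S17.H.NormHeight
import Fermat.Agent.S17.H.NormQuotOf

/-! # S17/H, node (G3), section CI-6 (first part): global heights of polynomials
Owner: helper4 (swap to the landed nodes: helper129). -/

set_option autoImplicit false

noncomputable section

open scoped Classical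

namespace Fermat.Agent.S17.H.CI

open Fermat.Agent.S17.H Polynomial

variable (𝔳 : AbsFam) {A : Type} [CommRing A] [Algebra Qb A] (C : WCurve A)

/-- summing a local estimate over all places. -/
theorem abs_finsum_sub_le {f g : Pl → ℝ} (hf : (Function.support f).Finite)
    (hg : (Function.support g).Finite) (γ : MConst) (h : ∀ v, |f v - g v| ≤ γ.c v) :
    |∑ᶠ v, f v - ∑ᶠ v, g v| ≤ γ.tot :=
  Fermat.Agent.S17.H.abs_finsum_sub_le f g hf hg γ h

theorem ht_cvec_eq {n m : ℕ} {f : Qb[X]} (hn : f.natDegree ≤ n) (hm : f.natDegree ≤ m) :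
    ht 𝔳 (cvec n f) = ht 𝔳 (cvec m f) := by
  unfold ht
  refine finsum_congr fun v => ?_
  have h := PolyLocal.vnorm_cvec_eq 𝔳 v hn hm
  exact congrArg Real.log h

theorem ht_cvec_mul (n : ℕ) : ∃ Cst : ℝ, ∀ f g : Qb[X], f ≠ 0 → g ≠ 0 → (f * g).natDegree ≤ n →
    |ht 𝔳 (cvec n (f * g)) - ht 𝔳 (cvec n f) - ht 𝔳 (cvec n g)| ≤ Cst := by
  obtain ⟨γ, hγ⟩ := log_vnorm_mul 𝔳 n
  refine ⟨γ.tot, fun f g hf hg hfg => ?_⟩
  have h1 := finite_support_log_vnorm 𝔳 (cvec n (f * g))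
  have h2 := finite_support_log_vnorm 𝔳 (cvec n f)
  have h3 := finite_support_log_vnorm 𝔳 (cvec n g)
  unfold ht
  rw [sub_sub, ← finsum_add_distrib h2 h3]
  refine abs_finsum_sub_le h1 ((h2.union h3).subset (Function.support_add _ _)) γ fun v => ?_
  have := hγ v f g hf hg hfg
  rwa [sub_sub] at this

theorem ht_cvec_C_mul (n : ℕ) {c : ℚ} (hc : c ≠ 0) (f : Qb[X]) :
    ht 𝔳 (cvec n (Polynomial.C (algebraMap ℚ Qb c) * f)) = ht 𝔳 (cvec n f) := by
  have e : cvec n (Polynomial.C (algebraMap ℚ Qb c) * f) =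
      (algebraMap ℚ Qb c) • cvec n f := by
    funext i
    simp [cvec]
  rw [e]
  by_cases h0 : cvec n f = 0
  · rw [h0, smul_zero]
  · have hc' : algebraMap ℚ Qb c ≠ 0 := by simpa using hc
    unfold ht
    have h1 : ∀ v, Real.log (vnorm 𝔳 v ((algebraMap ℚ Qb c) • cvec n f)) =
        Real.log (𝔳.av v (algebraMap ℚ Qb c)) + Real.log (vnorm 𝔳 v (cvec n f)) := by
      intro v
      rw [vnorm_smul, Real.log_mul ((𝔳.av v).ne_zero hc') (vnorm_pos 𝔳 v h0).ne']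
    rw [finsum_congr h1, finsum_add_distrib (finite_support_log_av 𝔳 _)
      (finite_support_log_vnorm 𝔳 _), sum_log_av_rat 𝔳 hc, zero_add]

theorem ht_cvec_Nm (n : ℕ) : ∃ Cst : ℝ, ∀ f : A, f ≠ 0 → f ∈ C.V n →
    |ht 𝔳 (cvec n (Nm C f)) - C.d * ht 𝔳 (crd C n f)| ≤ Cst := by
  obtain ⟨γ, hγ⟩ := log_vnorm_Nm 𝔳 C n
  refine ⟨γ.tot, fun f hf hV => ?_⟩
  have h1 := finite_support_log_vnorm 𝔳 (cvec n (Nm C f))
  have h2 := finite_support_log_vnorm 𝔳 (crd C n f)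
  unfold ht
  rw [mul_finsum]
  refine abs_finsum_sub_le h1 (h2.subset fun v hv => ?_) γ fun v => hγ v f hf hV
  exact right_ne_zero_of_mul hv

theorem ht_cvec_chi (n : ℕ) : ∃ Cst : ℝ, ∀ E : Finset (Pt A), E.card ≤ n →
    |ht 𝔳 (cvec n (chi C E)) - C.d * C.hE 𝔳 E| ≤ Cst := by
  obtain ⟨γ, hγ⟩ := log_vnorm_prod_X_sub_C 𝔳 n
  refine ⟨γ.tot, fun E hE => ?_⟩
  have hd : (C.d : ℝ) ≠ 0 := by exact_mod_cast (d_pos C).ne'
  have h1 := finite_support_log_vnorm 𝔳 (cvec n (chi C E))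
  have h2 : (Function.support fun v => ∑ P ∈ E, Real.log (mx 𝔳 v (P C.t))).Finite := by
    refine ((Set.Finite.biUnion E.finite_toSet fun P _ =>
      finite_support_log_mx 𝔳 (P C.t))).subset fun v hv => ?_
    obtain ⟨P, hP, hne⟩ := Finset.exists_ne_zero_of_sum_ne_zero hv
    exact Set.mem_biUnion (Finset.mem_coe.2 hP) hne
  have e : (C.d : ℝ) * C.hE 𝔳 E = ∑ᶠ v, ∑ P ∈ E, Real.log (mx 𝔳 v (P C.t)) := by
    unfold WCurve.hE WCurve.lam
    have h3 : ∀ v, ∑ P ∈ E, Real.log (mx 𝔳 v (P C.t)) / (C.d : ℝ) =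
        (∑ P ∈ E, Real.log (mx 𝔳 v (P C.t))) * (C.d : ℝ)⁻¹ := by
      intro v
      rw [Finset.sum_mul]
      exact Finset.sum_congr rfl fun P _ => div_eq_mul_inv _ _
    rw [finsum_congr h3, ← finsum_mul, mul_comm, mul_assoc, inv_mul_cancel₀ hd, mul_one]
  rw [e]
  unfold ht
  refine abs_finsum_sub_le h1 h2 γ fun v => ?_
  have := hγ v (E.val.map fun P => P C.t) (by rw [Multiset.card_map]; exact hE)
  rw [Multiset.map_map, Multiset.map_map] at this
  exact this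

end Fermat.Agent.S17.H.CI
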